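import Fermat.Agent.Ribet.H912.KummerChi
import Fermat.Agent.Ribet.H801.DegKummer

/-!
# Row 38, WALL-p, **(S2)**: the chain from `AlgP` to `H884.S2Statement` — frozen interface
(chain architect helper220; C1 = `H912.KummerChi` is on main, C6 = `H495.AlgP.AlgPStatement`)

`N = p·M'`, `p ∤ M'`, `p ≥ 5`, `A` a valuation subring of `ℚ̄` over `p`, `F = FF N = ℚ̄(X₀(N))`,
`V∞ = H708.Vinf N A`, `V₀ = H708.Vzero N A = V∞ ∘ w_N` (the two Gauss valuation rings of `F`).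
EVERYTHING in this file is stated at the level `ℚ̄` ("absolute" depths `r ∈ A`), so that no leaf
mentions a finite level; finite levels only occur INSIDE the leaf `DeepKummerStatement`
(sub-interface `S2Level.lean`).

## Vocabulary
* `OneMod V r u`   : `u ∈ 1 + r·V`;
* `Deep V p r f`   : `f ∈ (Fˣ)^p · (1 + r·V)`;
* `DeepC K V p r f`: `f ∈ Kˣ · (Fˣ)^p · (1 + r·V)`.

## Leaves (each ONE `Prop`; prove `theorem foo : FooStatement` VERBATIM)
| leaf | Prop | content |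
|---|---|---|
| SL  | `SplitLiftStatement`  | `SplitGen f` ⟹ `f ∈ ℚ̄ˣ·Fˣᵖ·(1 + ϖ V)` for `V = V∞` and `V = V₀`, some nonunits `ϖ ≠ 0` of `A` (depth-1 input; `r = sᵖ`, lift `s`) |
| NC  | `NormContrStatement`  | norm contraction: both norms `p`-th powers + depth `ϖ` (with constants) at both places ⟹ depth `ϖⁿ` (NO constants) at both places, all `n` (`H400.wnc_X0` / `H279.nc_X0` / `H232.pingpong` + bridges) |
| DK  | `DeepKummerStatement` | `p ∣ div f`, `f ∈ Fˣᵖ(1 + p²V∞) ∩ Fˣᵖ(1 + p²V₀)` ⟹ `σ f = a·yᵖ·f^c` for `σ ∈ I_A`, `σ ζ = ζ^c` (level descent + MOD at `p` + weak approximation + `AlgPStatement`) |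

## Glue (PROVED in `S2Glue.lean`)
`kummerChiFor_of_chain : SL → NC → DK → KummerChiFor p M' A (splitPart p M' A)` (`p ≥ 5`),
hence `s2Five_of_chain`, `wallTargets5_of_chain` and `S44` from the leaves.
-/

set_option autoImplicit false

noncomputable section

namespace Fermat.Agent.Ribet.H220

open AlgebraicCurve ModularCurve
open Fermat.Agent.S24 Fermat.Agent.A2.H708 Fermat.Agent.A2.H528
open Fermat.Agent.S29.H395 Fermat.Agent.S29.H801
open Fermat.Agent.Ribet.Spec Fermat.Agent.Ribet.H944.Wall Fermat.Agent.Ribet.H884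

/-! ## Vocabulary -/

section Vocabulary

variable {F : Type*} [Field F]

/-- `u ∈ 1 + r · V`. -/
def OneMod (V : ValuationSubring F) (r u : F) : Prop :=
  ∃ y ∈ V, u = 1 + r * y

/-- `f ∈ (Fˣ)^p · (1 + r · V)`. -/
def Deep (V : ValuationSubring F) (p : ℕ) (r f : F) : Prop :=
  ∃ g u : F, g ≠ 0 ∧ f = g ^ p * u ∧ OneMod V r u

/-- `f ∈ Kˣ · (Fˣ)^p · (1 + r · V)`. -/
def DeepC (K : Type*) [Field K] [Algebra K F] (V : ValuationSubring F) (p : ℕ) (r f : F) :
    Prop :=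
  ∃ (c : K) (g u : F), c ≠ 0 ∧ g ≠ 0 ∧ f = algebraMap K F c * g ^ p * u ∧ OneMod V r u

end Vocabulary

/-- The constant `r ∈ ℚ̄` as an element of `FF N`. -/
abbrev cF (N : ℕ) [NeZero N] (r : Kbar) : FF N := algebraMap Kbar (FF N) r

/-! ## Leaves -/

/-- **SL (split lift, depth-1 input).**  A Kummer generator with `p`-th power reductions on both
components is, at `V∞` and at `V₀`, a constant times a `p`-th power times an element of
`1 + ϖ V` for some nonzero nonunit `ϖ` of `A`. -/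
def SplitLiftStatement : Prop :=
  ∀ (p M' : ℕ) [NeZero M'] [NeZero p] [NeZero (p * M')] (hp : p.Prime), ¬ p ∣ M' →
    ∀ (A : ValuationSubring Kbar) (hA : A.LiesOverPrime p) (f : FF (p * M')),
      f ≠ 0 → SplitGen p M' A f →
      (∃ ϖ : Kbar, ϖ ≠ 0 ∧ ϖ ∈ A.nonunits ∧
        DeepC Kbar (Vinf (p * M') A hp.ne_zero hA) p (cF (p * M') ϖ) f) ∧
      (∃ ϖ : Kbar, ϖ ≠ 0 ∧ ϖ ∈ A.nonunits ∧
        DeepC Kbar (Vzero (p * M') A hp.ne_zero hA) p (cF (p * M') ϖ) f)

/-- **NC (norm contraction, absolute form).**  If both norms of `f` to level `M'` are `p`-th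
powers and `f` has depth `ϖ` (constants allowed) at `V∞` and at `V₀`, `ϖ ∣ p` a nonunit, then
`f` has depth `ϖⁿ` WITHOUT constants at `V∞` and at `V₀`, for every `n`. -/
def NormContrStatement : Prop :=
  ∀ (p M' : ℕ) [NeZero M'] [NeZero p] [NeZero (p * M')] (hp : p.Prime), p ≠ 2 → ¬ p ∣ M' →
    ∀ (A : ValuationSubring Kbar) (hA : A.LiesOverPrime p) (f : FF (p * M')) (g₁ g₂ : FF M'),
      f ≠ 0 →
      normAlong (alphaTo Kbar M' p (p * M') (Nat.mul_comm M' p)) f = g₁ ^ p →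
      normAlong (betaTo Kbar M' p (p * M') (Nat.mul_comm M' p)) f = g₂ ^ p →
      ∀ ϖ : Kbar, ϖ ≠ 0 → ϖ ∈ A.nonunits → (∃ e ∈ A, (p : Kbar) = ϖ * e) →
        DeepC Kbar (Vinf (p * M') A hp.ne_zero hA) p (cF (p * M') ϖ) f →
        DeepC Kbar (Vzero (p * M') A hp.ne_zero hA) p (cF (p * M') ϖ) f →
        ∀ n : ℕ, Deep (Vinf (p * M') A hp.ne_zero hA) p (cF (p * M') ϖ ^ n) f ∧
          Deep (Vzero (p * M') A hp.ne_zero hA) p (cF (p * M') ϖ ^ n) f

/-- **DK (deep Kummer classes are `χ`-eigen).**  `p ≥ 5`, `p ∣ div f`, and `f` is a `p`-th power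
times an element of `1 + p² V` at `V = V∞` and at `V = V₀`.  Then for `σ` in the inertia group
of `A` with `σ ζ = ζ ^ c` on `μ_p`: `σ f = a · y ^ p · f ^ c`. -/
def DeepKummerStatement : Prop :=
  ∀ (p M' : ℕ) [NeZero M'] [NeZero p] [NeZero (p * M')] (hp : p.Prime), 5 ≤ p → ¬ p ∣ M' →
    ∀ (A : ValuationSubring Kbar) (hA : A.LiesOverPrime p),
    ∀ σ ∈ A.inertiaSubgroupIn ℚ, ∀ c : ℕ, CycloAt p σ c →
    ∀ f : FF (p * M'), f ≠ 0 → (∀ v : Place Kbar (FF (p * M')), (p : ℤ) ∣ v.ord f) →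
      Deep (Vinf (p * M') A hp.ne_zero hA) p (cF (p * M') ((p : Kbar) ^ 2)) f →
      Deep (Vzero (p * M') A hp.ne_zero hA) p (cF (p * M') ((p : Kbar) ^ 2)) f →
      ∃ (y : FF (p * M')) (a : Kbar), a ≠ 0 ∧ y ≠ 0 ∧
        arithmeticRingAut (modularFunctionFieldFull (p * M')) σ f =
          algebraMap Kbar (FF (p * M')) a * y ^ p * f ^ c

/-- **(S2) for `p ≥ 5`** (what `S44` consumes). -/
def S2FiveStatement : Prop :=
  ∀ (p M' : ℕ) [NeZero M'] [NeZero p] [NeZero (p * M')], p.Prime → 5 ≤ p → ¬ p ∣ M' →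
    ∀ A : ValuationSubring Kbar, A.LiesOverPrime p → S2For p M' A (splitPart p M' A)

end Fermat.Agent.Ribet.H220

end
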