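import Fermat.Agent.Ribet.H220.S2Level
import Fermat.Agent.Ribet.H232.NCInst
import Fermat.Agent.A2.Alg.H34.StepI
import Fermat.Agent.A2.Mod.H553.Vinf
import Fermat.Agent.A2.Mod.H553.VzeroNe
import Fermat.Agent.A2.Mod.H398.L8
import Fermat.Agent.A2.Mod.H753.IndInf
import Fermat.Agent.A2.Mod.H753.IndZero
import Fermat.Agent.A2.Mod.H13.S1
import Fermat.Agent.A2.Mod.H751.Stau

/-!
# Row 38, WALL-p, **(S2)**: the leaf CUTLOC (helper220) — PROVED

`cutLoc : CutLocStatement`: for the chart `B` of `y ∈ {x, x⁻¹}` and the cuts `p₁ = B ∩ wV∞`,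
`p₂ = B ∩ wV₀`, every element of `V∞` (resp. `V₀`) is a fraction `a / b` with `a, b ∈ B`,
`b ∉ p₁` (resp. `b ∉ p₂`).

Proof: `B ⊆ V` (`V` is integrally closed and contains `R`, `y`); by A2's Step I
(`Alg.H34.exists_decomp`: `B_p` is a discrete valuation ring with uniformiser `w`) every `f ≠ 0`
is `w^(k₁-k₂) · A / D` with `A, D ∈ B ∖ p`; `A`, `D` are units of `V` (`p = B ∩ wV`, `w` a
uniformiser of `V`), so `f ∈ V` forces `k₂ ≤ k₁`.
-/

set_option autoImplicit false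
set_option linter.unusedSectionVars false
set_option linter.unusedVariables false
set_option linter.style.haveILetI false
set_option synthInstance.maxHeartbeats 400000
set_option maxHeartbeats 1600000

noncomputable section

namespace Fermat.Agent.Ribet.H220

open AlgebraicCurve ModularCurve
open Fermat.Agent.A2 Fermat.Agent.A2.Alg

section Abstract

variable {R F : Type*} [CommRing R] [Field F] [Algebra R F]

/-- **Abstract CUTLOC.**  `B` a noetherian chart with fraction field `F`, `p ⊓ q = (w)`,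
`q ⊄ p`; `V ⊇ B` a valuation subring with uniformiser `w` and `p = B ∩ wV`.  Then `V = B_p`. -/
theorem exists_frac_of_mem (w : R) (B : Subalgebra R F) [IsNoetherianRing B]
    [IsFractionRing B F] (p q : Ideal B) (hp : p.IsPrime)
    (hpq : p ⊓ q = Ideal.span {algebraMap R B w}) (hqp : ¬ q ≤ p)
    (V : ValuationSubring F) (hU : H48.IsUnif V (algebraMap R F w))
    (hBV : ∀ b : B, (b : F) ∈ V)
    (hcut : ∀ b : B, b ∈ p ↔ (b : F) * (algebraMap R F w)⁻¹ ∈ V)
    (f : F) (hf : f ∈ V) : ∃ a b : B, b ∉ p ∧ f * (b : F) = (a : F) := by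
  by_cases hf0 : f = 0
  · refine ⟨0, 1, ?_, by rw [hf0, zero_mul]; rfl⟩
    exact fun h => hp.ne_top ((Ideal.eq_top_iff_one p).2 h)
  obtain ⟨k₁, k₂, A, D, hA, hD, hfAD⟩ :=
    Fermat.Agent.A2.Alg.H34.exists_decomp w B p q hp hpq hqp f hf0
  set π : F := algebraMap R F w with hπ
  have hπ0 : π ≠ 0 := hU.ne_zero
  -- elements of `B ∖ p` are units of `V`
  have hunit : ∀ b : B, b ∉ p → (b : F)⁻¹ ∈ V := by
    intro b hb
    by_contra hinv
    exact hb ((hcut b).2 (hU.gen (b : F) (hBV b) hinv))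
  have hA0 : (A : F) ≠ 0 := by
    intro h0
    apply hA
    have : A = 0 := Subtype.ext h0
    rw [this]
    exact p.zero_mem
  have hD0 : (D : F) ≠ 0 := by
    intro h0
    apply hD
    have : D = 0 := Subtype.ext h0
    rw [this]
    exact p.zero_mem
  rcases le_or_gt k₂ k₁ with hk | hk
  · -- `f · D = w ^ (k₁ - k₂) · A`
    refine ⟨algebraMap R B (w ^ (k₁ - k₂)) * A, D, hD, ?_⟩
    have h1 : π ^ k₁ = π ^ k₂ * π ^ (k₁ - k₂) := by
      rw [← pow_add]
      congr 1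
      omega
    have h2 : f * (D : F) * π ^ k₂ = π ^ k₂ * (π ^ (k₁ - k₂) * (A : F)) := by
      rw [← mul_assoc, ← h1, ← hfAD]
      ring
    have h3 : f * (D : F) = π ^ (k₁ - k₂) * (A : F) := by
      have hk0 : π ^ k₂ ≠ 0 := pow_ne_zero _ hπ0
      apply mul_left_cancel₀ hk0
      rw [← h2]
      ring
    rw [h3]
    push_cast
    rfl
  · -- impossible: `f⁻¹ ∈ w V`
    exfalso
    have h1 : π ^ k₂ = π ^ k₁ * π ^ (k₂ - k₁) := by
      rw [← pow_add]
      congr 1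
      omega
    have h2 : f * π ^ (k₂ - k₁) * (D : F) = (A : F) := by
      have hk0 : π ^ k₁ ≠ 0 := pow_ne_zero _ hπ0
      apply mul_left_cancel₀ hk0
      rw [← hfAD, h1]
      ring
    -- `π ^ (k₂ - k₁) = A / (f D)`, so `π⁻¹ ∈ V`
    have h3 : π ^ (k₂ - k₁ - 1) * π * (f * (D : F) * (A : F)⁻¹) = 1 := by
      have h4 : π ^ (k₂ - k₁ - 1) * π = π ^ (k₂ - k₁) := by
        rw [← pow_succ]
        congr 1
        omega
      rw [h4]
      have : π ^ (k₂ - k₁) * (f * (D : F) * (A : F)⁻¹) =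
          (f * π ^ (k₂ - k₁) * (D : F)) * (A : F)⁻¹ := by ring
      rw [this, h2, mul_inv_cancel₀ hA0]
    have h5 : π⁻¹ = π ^ (k₂ - k₁ - 1) * (f * (D : F) * (A : F)⁻¹) := by
      have : π * (π ^ (k₂ - k₁ - 1) * (f * (D : F) * (A : F)⁻¹)) = 1 := by
        rw [← h3]
        ring
      exact (eq_inv_of_mul_eq_one_right this).symm ▸ rfl
    apply hU.inv_not_mem
    rw [h5]
    exact V.mul_mem _ _ (V.pow_mem hU.mem _)
      (V.mul_mem _ _ (V.mul_mem _ _ hf (hBV D)) (hunit A hA))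

end Abstract

/-- **CUTLOC.** -/
theorem cutLoc : CutLocStatement := by
  intro P E M q _ _ w hS V W hV hW y hy p₁ p₂ hc₁ hc₂
  haveI : IsDiscreteValuationRing ↥(RE P E) := hS.dvr
  have hNne : M * q ≠ 0 := mul_ne_zero hS.M_ne_zero hS.q_prime.ne_zero
  have hS1 : Mod.S1Statement P E M q w :=
    Mod.H13.s1 (Mod.H553.vzeroNe P E M q w) (Mod.H398.deg E M q) (Mod.H753.indInf P E M q w)
      (Mod.H753.indZero P E M q w)
  obtain ⟨p₁', p₂', hc₁', hc₂', hp₁, hp₂, h₁₂, h₂₁, hinf⟩ := hS1 hS V W hV hW y hy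
  have e₁ : p₁ = p₁' := Ideal.ext fun b => (hc₁ b).trans (hc₁' b).symm
  have e₂ : p₂ = p₂' := Ideal.ext fun b => (hc₂ b).trans (hc₂' b).symm
  subst e₁ e₂
  obtain ⟨hx, hfr, hconst⟩ := Mod.H398.deg E M q hS.q_prime hS.q_not_dvd
  have hpos : 0 < Module.finrank
      (IntermediateField.adjoin E ({Mod.xE E M q} : Set (FE E (M * q)))) (FE E (M * q)) := by
    rw [hfr]
    have h1 := Mod.dedekindPsi_pos_of_ne_zero M hS.M_ne_zero
    positivity
  have hfin : FiniteDimensional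
      (IntermediateField.adjoin E ({Mod.xE E M q} : Set (FE E (M * q)))) (FE E (M * q)) :=
    Module.finite_of_finrank_pos hpos
  have hB : ChartCtx E w y (Mod.chartAlg P E (M * q) y) := by
    rcases hy with rfl | rfl
    · exact ⟨hS.unif, hx, hfin, hconst, fun _ => Iff.rfl⟩
    · exact Fermat.Agent.A2.Alg.H34.chartCtx_inv w hS.unif (Mod.xE E M q) hx hfin hconst _
        (fun _ => Iff.rfl)
  obtain ⟨hN, -, hFr⟩ := Fermat.Agent.A2.Alg.H34.chart_instances' w y _ hB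
  haveI := hN
  haveI := hFr
  -- the two valuation rings
  have hWc : ∀ r : ↥(RE P E), W (Mod.cE P E (M * q) r) = Mod.cE P E (M * q) r :=
    fun r => W.commutes (r : E)
  have hU₁ : H48.IsUnif V (Mod.cE P E (M * q) w) := H232.isUnif_vinf hS hNne hV
  have hU₂ : H48.IsUnif (V.comap (W : FE E (M * q) →+* FE E (M * q)))
      (Mod.cE P E (M * q) w) := H232.isUnif_comap hU₁ _ (hWc w)
  have hRV : ∀ r : ↥(RE P E), algebraMap ↥(RE P E) (FE E (M * q)) r ∈ V :=
    fun r => Mod.H378.cE_mem hV r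
  have hRV₀ : ∀ r : ↥(RE P E), algebraMap ↥(RE P E) (FE E (M * q)) r ∈
      V.comap (W : FE E (M * q) →+* FE E (M * q)) := fun r => by
    show W (Mod.cE P E (M * q) r) ∈ V
    rw [hWc]
    exact Mod.H378.cE_mem hV r
  -- the coordinate is a unit of both
  have hj : ∀ (d : ℕ) [NeZero d] (hd : d ∣ M * q),
      Mod.jE E (M * q) d hd ∈ V ∧ (Mod.jE E (M * q) d hd)⁻¹ ∈ V :=
    fun d _ hd => (Mod.H553.vinfBasic P E w (M * q) hNne hS.dvr hS.unif V hV).2.2 d hd
  have hxV : Mod.xE E M q ∈ V ∧ (Mod.xE E M q)⁻¹ ∈ V := by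
    unfold Mod.xE
    refine ⟨V.mul_mem _ _ (hj 1 _).1 (hj q _).1, ?_⟩
    rw [mul_inv]
    exact V.mul_mem _ _ (hj 1 _).2 (hj q _).2
  have hxV₀ : Mod.xE E M q ∈ V.comap (W : FE E (M * q) →+* FE E (M * q)) ∧
      (Mod.xE E M q)⁻¹ ∈ V.comap (W : FE E (M * q) →+* FE E (M * q)) := by
    have e1 : W (Mod.jE E (M * q) 1 (one_dvd _)) =
        Mod.jE E (M * q) (M * q) (dvd_refl _) :=
      hW.1 1 (M * q) (one_dvd _) (dvd_refl _) (one_mul _)
    haveI : NeZero M := ⟨hS.M_ne_zero⟩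
    have e2 : W (Mod.jE E (M * q) q (dvd_mul_left q M)) =
        Mod.jE E (M * q) M (dvd_mul_right M q) :=
      hW.1 q M (dvd_mul_left q M) (dvd_mul_right M q) (Nat.mul_comm q M)
    constructor
    · show W (Mod.xE E M q) ∈ V
      unfold Mod.xE
      rw [map_mul, e1, e2]
      exact V.mul_mem _ _ (hj _ _).1 (hj _ _).1
    · show W (Mod.xE E M q)⁻¹ ∈ V
      unfold Mod.xE
      rw [map_inv₀, map_mul, e1, e2, mul_inv]
      exact V.mul_mem _ _ (hj _ _).2 (hj _ _).2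
  have hyV : y ∈ V := by
    rcases hy with rfl | rfl
    · exact hxV.1
    · exact hxV.2
  have hyV₀ : y ∈ V.comap (W : FE E (M * q) →+* FE E (M * q)) := by
    rcases hy with rfl | rfl
    · exact hxV₀.1
    · exact hxV₀.2
  have hBV : ∀ b : Mod.chartAlg P E (M * q) y, (b : FE E (M * q)) ∈ V := fun b =>
    Mod.H751.mem_valuationSubring_of_isIntegral_adjoin V hRV hyV b.2
  have hBV₀ : ∀ b : Mod.chartAlg P E (M * q) y,
      (b : FE E (M * q)) ∈ V.comap (W : FE E (M * q) →+* FE E (M * q)) := fun b =>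
    Mod.H751.mem_valuationSubring_of_isIntegral_adjoin _ hRV₀ hyV₀ b.2
  refine ⟨fun f hf => ?_, fun f hf => ?_⟩
  · exact exists_frac_of_mem w _ p₁ p₂ hp₁ hinf h₂₁ V hU₁ hBV (fun b => hc₁ b) f hf
  · exact exists_frac_of_mem w _ p₂ p₁ hp₂ (by rw [inf_comm]; exact hinf) h₁₂ _ hU₂ hBV₀
      (fun b => hc₂ b) f hf

end Fermat.Agent.Ribet.H220

end
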