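import Fermat.Agent.Ribet.H220.S2Spec
import Fermat.Agent.Ribet.H884.SlopeClosed
import Fermat.Agent.A3.H675.Ant

/-!
# Row 38, WALL-p, **(S2)**: the chain glue (chain architect helper220) — PROVED

* `kummerChiFor_of_chain : SplitLift → NormContr → DeepKummer →
     KummerChiFor p M' A (splitPart p M' A)`  (`p ≥ 5`);
* `s2Five_of_chain       : SplitLift → NormContr → DeepKummer → S2FiveStatement`;
* `wallTargets5_of_five  : S1 → S2Five → ResField → DlogOut → R3P → EisSlope →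
     H944.Wall.WallTargets5Statement` (the `p ≥ 5` form of `H884.wallTargets5_of`);
* `wallTargets5_of_chain`: the same from the three leaves of `S2Spec.lean`.

Plugged in from main: CLOSED (`H884.splitClosed`), the Kummer form of the new part
(`H801.alphaL_mk_eq_zero_iff`, `betaL_mk_eq_zero_iff`), the Kummer dictionary for `χ`
(`H912.s2For_of_kummerChi`), rank one of `A` (`A3.H675.harch`).
-/

set_option autoImplicit false
set_option synthInstance.maxHeartbeats 400000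
set_option maxHeartbeats 1000000

noncomputable section

namespace Fermat.Agent.Ribet.H220

open AlgebraicCurve ModularCurve
open Fermat.Agent.S24 Fermat.Agent.A2.H708 Fermat.Agent.A2.H528
open Fermat.Agent.S29.H395 Fermat.Agent.S29.H801
open Fermat.Agent.Ribet.Spec Fermat.Agent.Ribet.H944.Wall Fermat.Agent.Ribet.H884
open Fermat.Agent.Ribet.H801 Fermat.Agent.Ribet.H912

/-! ## Monotonicity of depths -/

section Mono

variable {F : Type*} [Field F]

theorem OneMod.mono {V : ValuationSubring F} {r r' a u : F} (ha : a ∈ V) (hr : r = r' * a)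
    (h : OneMod V r u) : OneMod V r' u := by
  obtain ⟨y, hy, rfl⟩ := h
  exact ⟨a * y, mul_mem ha hy, by rw [hr]; ring⟩

theorem Deep.mono {V : ValuationSubring F} {p : ℕ} {r r' a f : F} (ha : a ∈ V)
    (hr : r = r' * a) (h : Deep V p r f) : Deep V p r' f := by
  obtain ⟨g, u, hg, hf, hu⟩ := h
  exact ⟨g, u, hg, hf, hu.mono ha hr⟩

theorem DeepC.mono {K : Type*} [Field K] [Algebra K F] {V : ValuationSubring F} {p : ℕ}
    {r r' a f : F} (ha : a ∈ V) (hr : r = r' * a) (h : DeepC K V p r f) :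
    DeepC K V p r' f := by
  obtain ⟨c, g, u, hc, hg, hf, hu⟩ := h
  exact ⟨c, g, u, hc, hg, hf, hu.mono ha hr⟩

/-- In a valuation ring two nonzero nonunits have a common nonunit divisor. -/
theorem exists_common_divisor (A : ValuationSubring F) {a b : F} (ha0 : a ≠ 0) (hb0 : b ≠ 0)
    (ha : a ∈ A.nonunits) (hb : b ∈ A.nonunits) :
    ∃ d : F, d ≠ 0 ∧ d ∈ A.nonunits ∧ (∃ x ∈ A, a = d * x) ∧ (∃ y ∈ A, b = d * y) := by
  rcases A.mem_or_inv_mem (a / b) with h | h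
  · exact ⟨b, hb0, hb, ⟨a / b, h, by field_simp⟩, ⟨1, one_mem _, by ring⟩⟩
  · refine ⟨a, ha0, ha, ⟨1, one_mem _, by ring⟩, ⟨b / a, ?_, by field_simp⟩⟩
    rwa [inv_div] at h

end Mono

/-! ## Constants in the two Gauss rings -/

section Const

variable (N : ℕ) [NeZero N] (A : ValuationSubring Kbar) {ℓ : ℕ} (hℓ : ℓ ≠ 0)
  (hA : (ℓ : Kbar) ∈ A.nonunits)

theorem cF_mem_Vinf {a : Kbar} (ha : a ∈ A) : cF N a ∈ Vinf N A hℓ hA :=
  (algebraMap_mem_gaussInf_iff (intGen_full N)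
    (attainsMax_Qbar hℓ hA (modularFunctionFieldFull N)) a).2 ha

theorem cF_mem_Vzero {a : Kbar} (ha : a ∈ A) : cF N a ∈ Vzero N A hℓ hA := by
  show wF N (cF N a) ∈ Vinf N A hℓ hA
  rw [cF, AlgEquiv.commutes]
  exact cF_mem_Vinf N A hℓ hA ha

end Const

theorem isAlgebraic_int_Kbar (x : Kbar) : IsAlgebraic ℤ x :=
  (IsFractionRing.isAlgebraic_iff ℤ ℚ Kbar).mpr
    ((AlgebraicClosure.isAlgebraic ℚ).isAlgebraic x)

/-! ## The chain -/

/-- **The chain.**  SL + NC + DK give the Kummer form of (S2) for `𝒮 = splitPart`, `p ≥ 5`. -/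
theorem kummerChiFor_of_chain (hSL : SplitLiftStatement) (hNC : NormContrStatement)
    (hDK : DeepKummerStatement)
    (p M' : ℕ) [NeZero M'] [NeZero p] [NeZero (p * M')] (hp : p.Prime) (hp5 : 5 ≤ p)
    (hpM : ¬ p ∣ M') (A : ValuationSubring Kbar) (hA : A.LiesOverPrime p) :
    KummerChiFor p M' A (splitPart p M' A) := by
  intro x hx hnew σ hσ c hc
  have hp2 : p ≠ 2 := by omega
  -- a Kummer generator with split reductions
  obtain ⟨f, hfK, hfS⟩ := splitClosed p M' hp hpM A hA x hx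
  obtain ⟨hf0, D, hDx, hord⟩ := id hfK
  obtain ⟨-, hα, hβ⟩ := hnew
  rw [← hDx] at hα hβ
  -- both norms are `p`-th powers
  obtain ⟨g₁, -, h₁⟩ :=
    (alphaL_mk_eq_zero_iff p M' hp.ne_zero D hf0 (fun w => (hord w).symm)).1 hα
  obtain ⟨g₂, -, h₂⟩ :=
    (betaL_mk_eq_zero_iff p M' hp.ne_zero D hf0 (fun w => (hord w).symm)).1 hβ
  -- depth one, with constants
  obtain ⟨⟨ϖ₁, hϖ₁0, hϖ₁, hd₁⟩, ⟨ϖ₂, hϖ₂0, hϖ₂, hd₂⟩⟩ := hSL p M' hp hpM A hA f hf0 hfS
  -- a common depth dividing `p`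
  have hpA : (p : Kbar) ∈ A.nonunits := hA
  have hp0 : (p : Kbar) ≠ 0 := by exact_mod_cast hp.ne_zero
  obtain ⟨d, hd0, hd, ⟨x₁, hx₁, e₁⟩, ⟨x₂, hx₂, e₂⟩⟩ :=
    exists_common_divisor A hϖ₁0 hϖ₂0 hϖ₁ hϖ₂
  obtain ⟨ϖ, hϖ0, hϖ, ⟨y₁, hy₁, e₃⟩, ⟨e, he, hpe⟩⟩ :=
    exists_common_divisor A hd0 hp0 hd hpA
  have hI : DeepC Kbar (Vinf (p * M') A hp.ne_zero hA) p (cF (p * M') ϖ) f := by
    refine hd₁.mono (a := cF (p * M') (y₁ * x₁))
      (cF_mem_Vinf (p * M') A hp.ne_zero hA (mul_mem hy₁ hx₁)) ?_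
    rw [cF, cF, cF, ← map_mul, e₁, e₃]
    congr 1
    ring
  have hZ : DeepC Kbar (Vzero (p * M') A hp.ne_zero hA) p (cF (p * M') ϖ) f := by
    refine hd₂.mono (a := cF (p * M') (y₁ * x₂))
      (cF_mem_Vzero (p * M') A hp.ne_zero hA (mul_mem hy₁ hx₂)) ?_
    rw [cF, cF, cF, ← map_mul, e₂, e₃]
    congr 1
    ring
  -- norm contraction
  have hnc := hNC p M' hp hp2 hpM A hA f g₁ g₂ hf0 h₁ h₂ ϖ hϖ0 hϖ ⟨e, he, hpe⟩ hI hZ
  -- rank one: `ϖ ^ n ∈ p² A`
  have hp20 : (p : Kbar) ^ 2 ≠ 0 := pow_ne_zero 2 hp0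
  obtain ⟨n, hn⟩ := Fermat.Agent.A3.H675.harch A isAlgebraic_int_Kbar hp hpA ϖ
    ((p : Kbar) ^ 2) hϖ hp20
  have hpow : cF (p * M') ϖ ^ n =
      cF (p * M') ((p : Kbar) ^ 2) * cF (p * M') (ϖ ^ n / (p : Kbar) ^ 2) := by
    rw [cF, cF, cF, ← map_pow, ← map_mul]
    congr 1
    field_simp
  obtain ⟨hnI, hnZ⟩ := hnc n
  have hI' := hnI.mono (cF_mem_Vinf (p * M') A hp.ne_zero hA hn) hpow
  have hZ' := hnZ.mono (cF_mem_Vzero (p * M') A hp.ne_zero hA hn) hpow
  -- deep Kummer classes are `χ`-eigen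
  obtain ⟨y, a, ha0, hy0, hrel⟩ := hDK p M' hp hp5 hpM A hA σ hσ c hc f hf0
    (fun v => ⟨(D : Divisor Kbar (FF (p * M'))) v, hord v⟩) hI' hZ'
  exact ⟨f, y, a, hfK, ha0, hy0, hrel⟩

/-- **(S2) for `p ≥ 5`** from the three leaves. -/
theorem s2Five_of_chain (hSL : SplitLiftStatement) (hNC : NormContrStatement)
    (hDK : DeepKummerStatement) : S2FiveStatement := by
  intro p M' _ _ _ hp hp5 hpM A hA
  exact s2For_of_kummerChi p M' A _ (kummerChiFor_of_chain hSL hNC hDK p M' hp hp5 hpM A hA)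

/-- The four targets for `p ≥ 5` with (S2) only for `p ≥ 5` (`H884.wallTargets5_of` asks for
(S2) at all odd primes). -/
theorem wallTargets5_of_five (h1 : S1Statement) (h2 : S2FiveStatement)
    (hR : ResFieldStatement) (hD : DlogOutStatement) (h3 : H764.I3.R3PStatement)
    (hE : EisSlopeStatement) : WallTargets5Statement := by
  intro p M' _ _ _ hp hp5 hpM A hA
  have hp2 : p ≠ 2 := by omega
  exact ⟨finPart p M' A, splitPart p M' A, h1 p M' hp hpM A hA, h2 p M' hp hp5 hpM A hA,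
    s3For_of hR hD h3 p M' hp hp2 hpM A hA, s4For_of hE p M' hp hp5 hpM A hA⟩

/-- **The four targets for `p ≥ 5`** from the (S2)-chain leaves and the other leaves of
`H884/SlopeSpec.lean` (`(S1)` = `H884.s1`). -/
theorem wallTargets5_of_chain (hSL : SplitLiftStatement) (hNC : NormContrStatement)
    (hDK : DeepKummerStatement) (hR : ResFieldStatement) (hD : DlogOutStatement)
    (h3 : H764.I3.R3PStatement) (hE : EisSlopeStatement) : WallTargets5Statement :=
  wallTargets5_of_five s1 (s2Five_of_chain hSL hNC hDK) hR hD h3 hE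

end Fermat.Agent.Ribet.H220

end
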