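import Fermat.Agent.Ribet.H220.S2Spec
import Fermat.Agent.Ribet.H495.AlgPSpec
import Fermat.Agent.A2.Mod.Asm
import Fermat.Agent.A2.T1.H669.Embed
import Fermat.Agent.A2.H48.TwoVal

/-!
# Row 38, WALL-p, **(S2)**: sub-interface of the leaf DK (`H220.DeepKummerStatement`)
(chain architect helper220; FROZEN Props, glue in `S2LevelGlue.lean` / `S2Descent.lean`)

DK is proved at a good level `E ⊆ ℚ̄` (`A2.GoodField P E`) containing a primitive `p`-th root of
unity and the coefficients of the data, exactly as A2's `T1`: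

    DK  ⟸  LevelStatement + GaussDescentStatement            (descent glue, `S2Descent.lean`)
    LevelStatement  ⟸  H495.AlgP.AlgPStatement + MergeStatement + CutLocStatement
                        + A2's MOD at `q = p` (S1, Sτ, L1, L4, L6, L8 from main; S2, S3, GOODRED)
                                                             (level glue, `S2LevelGlue.lean`)

Vocabulary of `A2/Mod/Spec.lean`, `A2/Mod/Asm.lean` (level `N = M * p`, `V` with `Mod.IsVinf`,
`W` with `Mod.IsFricke`, `V₀ = V.comap W`, charts `Mod.chartAlg`, cuts `Mod.IsCut`) and of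
`S2Spec.lean` (`OneMod`, `Deep`).

| leaf | Prop | content |
|---|---|---|
| LEVEL | `LevelStatement` | at a good level `E ∋ ζ_p`: `p ∣ div y`, `y ∈ Fˣᵖ(1 + p²V) ∩ Fˣᵖ(1 + p²V₀)` ⟹ `τ y = hᵖ·y^c` |
| GD    | `GaussDescentStatement` | `y ∈ F_E`, `ι y ∈ H708.Vinf` (Gauss ring over `P ⊆ ℚ̄`) ⟹ `y ∈ V∞(E)` (normal form over `R_E`) |
| MERGE | `MergeStatement` | Mathlib + `H48.IsUnif`: two distinct discrete valuation rings, `f ∈ Fˣᵖ(1 + rV₁) ∩ Fˣᵖ(1 + rV₂)` ⟹ `f = hᵖ·u`, `u ∈ (1 + rV₁) ∩ (1 + rV₂)` (weak approximation) |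
| CUTLOC| `CutLocStatement` | `V∞ = B_{p₁}`, `V₀ = B_{p₂}` for the charts `B` of the coordinates `x`, `x⁻¹` and the cuts `p₁ = B ∩ wV∞`, `p₂ = B ∩ wV₀` |
-/

set_option autoImplicit false
set_option synthInstance.maxHeartbeats 400000
set_option maxHeartbeats 1600000

noncomputable section

namespace Fermat.Agent.Ribet.H220

open AlgebraicCurve ModularCurve
open Fermat.Agent.A2

/-- **LEVEL.**  `E` a good level for `P` (over `p ≥ 5`, `p ∤ M`) containing a primitive `p`-th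
root of unity `ζ`; `N = M * p`; `V = V∞`, `W` the Fricke involution of `F_{N,E}`; `τ` in the
inertia group of `P` with `τ ζ = ζ ^ c`.  If `p ∣ div y` and `y` is a `p`-th power times an element
of `1 + p² V` at `V = V∞` and at `V = V₀ = V∞ ∘ W`, then `τ y = h ^ p · y ^ c`. -/
def LevelStatement : Prop :=
  ∀ (P : ValuationSubring Qb) (E : IntermediateField ℚ Qb) (M p N : ℕ) [NeZero M] [NeZero p]
    [NeZero N], M * p = N → p.Prime → 5 ≤ p → ¬ p ∣ M → P.LiesOverPrime p →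
    ∀ (hE : GoodField P E) (ζ : E), IsPrimitiveRoot ζ p →
    ∀ (V : ValuationSubring (FE E N)) (W : FE E N ≃ₐ[E] FE E N),
      Mod.IsVinf P E N V → Mod.IsFricke E N W →
    ∀ (τ : Qb ≃ₐ[ℚ] Qb) (hτ : τ ∈ P.inertiaSubgroupIn ℚ) (c : ℕ), hE.res τ hτ ζ = ζ ^ c →
    ∀ y : FE E N, y ≠ 0 → DivisibleDiv E p y →
      Deep V p (algebraMap E (FE E N) ((p : E) ^ 2)) y →
      Deep (V.comap (W : FE E N →+* FE E N)) p (algebraMap E (FE E N) ((p : E) ^ 2)) y →
      ∃ h : FE E N, h ≠ 0 ∧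
        arithmeticRingAut (modularFunctionFieldFull N) (hE.res τ hτ) y = h ^ p * y ^ c

/-- **GD (Gauss descent).**  If `R_E = P ∩ E` is a discrete valuation ring, a function of level
`E` whose image in `ℚ̄(X₀(N))` lies in the Gauss ring `H708.Vinf` (over `P`) lies in the Gauss
ring `V∞` of level `E`. -/
def GaussDescentStatement : Prop :=
  ∀ (P : ValuationSubring Qb) (E : IntermediateField ℚ Qb) (N : ℕ) [NeZero N] {ℓ : ℕ}
    (hℓ : ℓ ≠ 0) (hP : (ℓ : Qb) ∈ P.nonunits), IsDiscreteValuationRing (RE P E) →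
    ∀ V : ValuationSubring (FE E N), Mod.IsVinf P E N V →
    ∀ y : FE E N,
      T1.H669.iota E (modularFunctionFieldFull N) y ∈ H708.Vinf N P hℓ hP → y ∈ V

/-- **MERGE (weak approximation for two discrete valuation rings).**  `V₁ ≠ V₂` valuation
subrings of `F` with common uniformiser `π`, both archimedean; `r ∈ π V₁ ∩ π V₂`, `r ≠ 0`.  If `f`
is a `p`-th power times an element of `1 + r V_i` for `i = 1` and for `i = 2`, then `f = h ^ p · u`
with ONE `h` and `u ∈ (1 + r V₁) ∩ (1 + r V₂)`. -/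
def MergeStatement : Prop :=
  ∀ {F : Type} [Field F] (V₁ V₂ : ValuationSubring F) (π : F),
    H48.IsUnif V₁ π → H48.IsUnif V₂ π → V₁ ≠ V₂ →
    (∀ x : F, ∃ n : ℕ, π ^ n * x ∈ V₁) → (∀ x : F, ∃ n : ℕ, π ^ n * x ∈ V₂) →
    ∀ (p : ℕ) (r f : F), r ≠ 0 → r * π⁻¹ ∈ V₁ → r * π⁻¹ ∈ V₂ →
      Deep V₁ p r f → Deep V₂ p r f →
      ∃ h u : F, h ≠ 0 ∧ f = h ^ p * u ∧ OneMod V₁ r u ∧ OneMod V₂ r u

/-- **CUTLOC.**  In the setting of A2's MOD (`Mod.Setting`, level `M * q`), for the chart `B` of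
a coordinate `y ∈ {x, x⁻¹}` and the two cuts `p₁ = B ∩ w V∞`, `p₂ = B ∩ w V₀`: every element of
`V∞` is a fraction `a / b` with `a, b ∈ B`, `b ∉ p₁`, and every element of `V₀` is a fraction
`a / b` with `b ∉ p₂`  (`V∞ = B_{p₁}`, `V₀ = B_{p₂}`). -/
def CutLocStatement : Prop :=
  ∀ (P : ValuationSubring Qb) (E : IntermediateField ℚ Qb) (M q : ℕ) [NeZero M] [NeZero q]
    (w : RE P E), Mod.Setting P E M q w →
    ∀ (V : ValuationSubring (FE E (M * q))) (W : FE E (M * q) ≃ₐ[E] FE E (M * q)),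
      Mod.IsVinf P E (M * q) V → Mod.IsFricke E (M * q) W →
    ∀ y : FE E (M * q), Mod.IsCoord E M q y →
    ∀ p₁ p₂ : Ideal (Mod.chartAlg P E (M * q) y),
      Mod.IsCut P E (M * q) w V (Mod.chartAlg P E (M * q) y) p₁ →
      Mod.IsCut P E (M * q) w (V.comap (W : FE E (M * q) →+* FE E (M * q)))
        (Mod.chartAlg P E (M * q) y) p₂ →
      (∀ f ∈ V, ∃ a b : Mod.chartAlg P E (M * q) y, b ∉ p₁ ∧
        f * (b : FE E (M * q)) = (a : FE E (M * q))) ∧
      (∀ f ∈ V.comap (W : FE E (M * q) →+* FE E (M * q)),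
        ∃ a b : Mod.chartAlg P E (M * q) y, b ∉ p₂ ∧
          f * (b : FE E (M * q)) = (a : FE E (M * q)))

end Fermat.Agent.Ribet.H220

end
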