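import Fermat.Agent.Ribet.H220.S2Level
import Fermat.Agent.Ribet.H220.S2Glue
import Fermat.Agent.Ribet.H232.NCInst
import Fermat.Agent.Ribet.H495.AlgPAsm
import Fermat.Agent.Ribet.H12.CountWild
import Fermat.Agent.A2.T1.H669.T1
import Fermat.Agent.A2.Mod.H553.Vinf
import Fermat.Agent.A2.Mod.H553.VzeroNe
import Fermat.Agent.A2.Mod.H398.L8
import Fermat.Agent.A2.Mod.H753.IndInf
import Fermat.Agent.A2.Mod.H753.IndZero
import Fermat.Agent.A2.Mod.H13.S1
import Fermat.Agent.A2.Mod.H751.Stau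
import Fermat.Agent.A2.Top.H994.ModTop

/-!
# Row 38, WALL-p, **(S2)**: the level glue (chain architect helper220) — PROVED

`levelReady_of_parts : AlgPStatement → MergeStatement → CutLocStatement → (A2: S2, S3, GOODRED)
   → LevelReadyStatement`  (all odd `p`, with `p = 3 → 2 ∣ M`: the levels where A2's MOD exists);
`level_of_parts : … → LevelStatement` (`p ≥ 5`, the frozen Prop of `S2Level.lean`).
All hypotheses except MERGE and CUTLOC are on main: `H224.algP_unconditional`, `Mod.H142.s2`,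
`Mod.H372.s3_of_leaves`, `Top.H216.goodRedStatement` (see `Fermat/Agent/S34.lean`).

At a good level `E ∋ ζ_p` (`R = R_E`, uniformiser `w`, `λ = ζ - 1`):
1. `p² = λ^p · w · a` in `R` (`p = λ^(p-1) · unit`, `λ ∈ (w)`, `p ≥ 5`), so depth `p²` is depth
   `λ^p w`;
2. MERGE: `y = h ^ p · u` with `u ∈ (1 + λ^p w V∞) ∩ (1 + λ^p w V₀)`;
3. MOD at `q = p` (S1, Sτ, L1, L6, L8, L9, L10 from main; S2, S3, GOODRED hypotheses): the two
   `SSChart`s with cuts `p₁ = B ∩ wV∞`, `p₂ = B ∩ wV₀`; CUTLOC: `u` is `DeepOne` on both charts;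
4. `AlgPStatement`: `τ u = h' ^ p · u ^ c`, hence `τ y = (τ h · h' · h^(-c)) ^ p · y ^ c`.
-/

set_option autoImplicit false
set_option linter.unusedSectionVars false
set_option linter.unusedVariables false
set_option linter.style.haveILetI false
set_option synthInstance.maxHeartbeats 400000
set_option maxHeartbeats 1600000

noncomputable section

namespace Fermat.Agent.Ribet.H220

open AlgebraicCurve ModularCurve
open Fermat.Agent.A2 Fermat.Agent.A2.Alg

/-! ## Generic lemmas -/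

section Generic

variable {R F : Type*} [CommRing R] [Field F] [Algebra R F]

/-- `u ∈ 1 + s V` and `V ⊆ B_n` give `u ∈ 1 + s B_n`. -/
theorem locOneR_of_oneMod (B : Subalgebra R F) (n : Ideal B) (V : ValuationSubring F)
    (hV : ∀ f ∈ V, ∃ a b : B, b ∉ n ∧ f * (b : F) = (a : F)) (s : R) (u : F)
    (h : OneMod V (algebraMap R F s) u) : H495.AlgP.LocOneR B n s u := by
  obtain ⟨z, hz, rfl⟩ := h
  obtain ⟨a', b, hb, hab⟩ := hV z hz
  refine ⟨b + algebraMap R B s * a', b, hb, ?_, ?_⟩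
  · rw [add_sub_cancel_left]
    exact Ideal.mul_mem_right _ _ (Ideal.subset_span rfl)
  · push_cast
    rw [← hab]
    ring

variable {E : Type*} [Field E] [Algebra E F]

/-- `p ∣ div (h ^ m · u)` implies `p ∣ div u`. -/
theorem divisibleDiv_of_pow_mul (m : ℕ) (f h u : F) (hh : h ≠ 0) (hf : f = h ^ m * u)
    (hd : DivisibleDiv E m f) : DivisibleDiv E m u := by
  intro V hV hEV
  obtain ⟨h', u', hh', hu', hu'inv, hfu⟩ := hd V hV hEV
  refine ⟨h' * h⁻¹, u', mul_ne_zero hh' (inv_ne_zero hh), hu', hu'inv, ?_⟩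
  have h1 : u = f * (h ^ m)⁻¹ := by
    rw [hf, mul_comm (h ^ m) u, mul_assoc, mul_inv_cancel₀ (pow_ne_zero m hh), mul_one]
  rw [h1, hfu, mul_pow, inv_pow]
  ring

/-- a root of unity lies in every valuation subring. -/
theorem mem_of_pow_eq_one (A : ValuationSubring F) {x : F} {n : ℕ} (hn : n ≠ 0)
    (hx : x ^ n = 1) : x ∈ A := by
  rcases A.mem_or_inv_mem x with h | h
  · exact h
  · have h1 : x = x⁻¹ ^ (n - 1) := by
      have hx0 : x ≠ 0 := by
        rintro rfl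
        rw [zero_pow hn] at hx
        exact zero_ne_one hx
      have h2 : x ^ n = x ^ (n - 1) * x := by
        rw [← pow_succ]
        congr 1
        omega
      rw [h2] at hx
      rw [inv_pow]
      exact (eq_inv_of_mul_eq_one_right hx)
    rw [h1]
    exact A.pow_mem h _

end Generic

/-- the arithmetic of the depth: `p² = λ^p · w · a` for `λ = ζ - 1`, `p ≥ 3`. -/
theorem exists_sq_eq {R : Type*} [CommRing R] [IsDomain R] [IsLocalRing R]
    (w : R) (hw : IsLocalRing.maximalIdeal R = Ideal.span {w}) (p : ℕ) (hp : p.Prime)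
    (hp3 : 3 ≤ p) (hpR : (p : R) ∈ IsLocalRing.maximalIdeal R) (ζ : R)
    (hζ : IsPrimitiveRoot ζ p) : ∃ a : R, (p : R) ^ 2 = (ζ - 1) ^ p * w * a := by
  obtain ⟨u, -, hpu⟩ := Fermat.Agent.Ribet.H12.natCast_eq_sub_one_pow_mul_h12 hp hζ
  have hmem : ζ - 1 ∈ IsLocalRing.maximalIdeal R := by
    haveI : Fact p.Prime := ⟨hp⟩
    have h0 : ((p : ℕ) : IsLocalRing.ResidueField R) = 0 := by
      have := (IsLocalRing.residue_eq_zero_iff (p : R)).2 hpR
      rwa [map_natCast] at this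
    haveI : CharP (IsLocalRing.ResidueField R) p := (CharP.charP_iff_prime_eq_zero hp).2 h0
    rw [← IsLocalRing.residue_eq_zero_iff]
    have h1 : (IsLocalRing.residue R (ζ - 1)) ^ p = 0 := by
      rw [map_sub, map_one, sub_pow_char, one_pow, ← map_pow, hζ.pow_eq_one, map_one, sub_self]
    exact pow_eq_zero_iff (hp.ne_zero) |>.1 h1
  rw [hw, Ideal.mem_span_singleton'] at hmem
  obtain ⟨ρ, hρ⟩ := hmem
  have h1 : (ζ - 1) ^ (p - 1) = (ζ - 1) ^ (p - 3) * (ζ - 1) ^ 2 := by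
    rw [← pow_add]
    congr 1
    omega
  have h2 : (ζ - 1) ^ p = (ζ - 1) ^ (p - 3) * (ζ - 1) ^ 3 := by
    rw [← pow_add]
    congr 1
    omega
  refine ⟨ρ * (ζ - 1) ^ (p - 3) * u ^ 2, ?_⟩
  rw [hpu, h1, h2]
  have e : (ζ - 1) ^ (p - 3) * (ζ - 1) ^ 3 * w * (ρ * (ζ - 1) ^ (p - 3) * u ^ 2) =
      (ζ - 1) ^ (p - 3) * (ζ - 1) ^ 3 * (ρ * w) * ((ζ - 1) ^ (p - 3) * u ^ 2) := by ring
  rw [e, hρ]
  ring

/-! ## The level glue -/

/-- **LEVEL, ready form**: `LevelStatement` for all odd primes `p`, with `2 ∣ M` if `p = 3`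
(the levels at which A2's MOD gives the semistable model at `q = p`). -/
def LevelReadyStatement : Prop :=
  ∀ (P : ValuationSubring Qb) (E : IntermediateField ℚ Qb) (M p N : ℕ) [NeZero M] [NeZero p]
    [NeZero N], M * p = N → p.Prime → p ≠ 2 → (p = 3 → 2 ∣ M) → ¬ p ∣ M → P.LiesOverPrime p →
    ∀ (hE : GoodField P E) (ζ : E), IsPrimitiveRoot ζ p →
    ∀ (V : ValuationSubring (FE E N)) (W : FE E N ≃ₐ[E] FE E N),
      Mod.IsVinf P E N V → Mod.IsFricke E N W →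
    ∀ (τ : Qb ≃ₐ[ℚ] Qb) (hτ : τ ∈ P.inertiaSubgroupIn ℚ) (c : ℕ), hE.res τ hτ ζ = ζ ^ c →
    ∀ y : FE E N, y ≠ 0 → DivisibleDiv E p y →
      Deep V p (algebraMap E (FE E N) ((p : E) ^ 2)) y →
      Deep (V.comap (W : FE E N →+* FE E N)) p (algebraMap E (FE E N) ((p : E) ^ 2)) y →
      ∃ h : FE E N, h ≠ 0 ∧
        arithmeticRingAut (modularFunctionFieldFull N) (hE.res τ hτ) y = h ^ p * y ^ c

theorem level_of_ready (h : LevelReadyStatement) : LevelStatement := by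
  intro P E M p N _ _ _ hN hp hp5 hpM hP hE ζ hζ V W hV hW τ hτ c hc y hy0 hdd hd1 hd2
  exact h P E M p N hN hp (by omega) (by omega) hpM hP hE ζ hζ V W hV hW τ hτ c hc y hy0 hdd
    hd1 hd2

/-- **LEVEL (ready form) from the parts.** -/
theorem levelReady_of_parts (hALG : H495.AlgP.AlgPStatement) (hMerge : MergeStatement)
    (hLoc : CutLocStatement)
    (hS2 : ∀ (P : ValuationSubring Qb) (E : IntermediateField ℚ Qb) (M q : ℕ) [NeZero M]
      [NeZero q] (w : RE P E), Mod.S2Statement P E M q w)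
    (hS3 : ∀ (P : ValuationSubring Qb) (E : IntermediateField ℚ Qb) (M q : ℕ) [NeZero M]
      [NeZero q] (w : RE P E), Mod.S3Statement P E M q w)
    (hGood : Top.H994.GoodRedStatement) : LevelReadyStatement := by
  intro P E M p N _ _ _ hN hp hp2 h3 hpM hP hE ζ hζ V W hV hW τ hτ c hc y hy0 hdd hd1 hd2
  subst hN
  have hp3 : 3 ≤ p := by
    have := hp.two_le
    omega
  haveI : IsDiscreteValuationRing ↥(RE P E) := hE.dvr
  haveI : HenselianLocalRing ↥(RE P E) := hE.henselian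
  haveI : IsAlgClosed (IsLocalRing.ResidueField ↥(RE P E)) := hE.algClosed
  obtain ⟨w, hw⟩ := IsDiscreteValuationRing.exists_irreducible ↥(RE P E)
  have hM0 : M ≠ 0 := NeZero.ne M
  have hNne : M * p ≠ 0 := mul_ne_zero hM0 hp.ne_zero
  have hS : Mod.Setting P E M p w := ⟨hp, hpM, hM0, hP, hE.dvr, hw⟩
  obtain ⟨VM, hVM⟩ := Mod.H553.vinfExists P E M hM0 hE.dvr
  have hS1 : Mod.S1Statement P E M p w :=
    Mod.H13.s1 (Mod.H553.vzeroNe P E M p w) (Mod.H398.deg E M p) (Mod.H753.indInf P E M p w)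
      (Mod.H753.indZero P E M p w)
  have hgood := hGood P E M p hp hpM h3 (fun h => absurd h hp2) hP hE w VM hw hVM
  obtain ⟨hx, hfr, hconst⟩ := Mod.H398.deg E M p hp hpM
  have hpos : 0 < Module.finrank
      (IntermediateField.adjoin E ({Mod.xE E M p} : Set (FE E (M * p)))) (FE E (M * p)) := by
    rw [hfr]
    have h1 := Mod.dedekindPsi_pos_of_ne_zero M hM0
    positivity
  have hfin : FiniteDimensional
      (IntermediateField.adjoin E ({Mod.xE E M p} : Set (FE E (M * p)))) (FE E (M * p)) :=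
    Module.finite_of_finrank_pos hpos
  -- the two charts with their cuts
  obtain ⟨p₁, p₂, hc₁, hc₂, hp₁, hp₂, h₁₂, h₂₁, hinf⟩ :=
    hS1 hS V W hV hW (Mod.xE E M p) (Or.inl rfl)
  obtain ⟨hn₁, hn₂⟩ := hS2 P E M p w hS VM V W hVM hV hW _ _ (Or.inl ⟨rfl, rfl⟩) hgood.1
    p₁ p₂ hc₁ hc₂
  have hrad := hS3 P E M p w hS VM V W hVM hV hW _ _ (Or.inl ⟨rfl, rfl⟩) hgood.1 p₁ p₂ hc₁ hc₂
  obtain ⟨q₁, q₂, hd₁, hd₂, hq₁, hq₂, k₁₂, k₂₁, kinf⟩ :=
    hS1 hS V W hV hW (Mod.xE E M p)⁻¹ (Or.inr rfl)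
  obtain ⟨kn₁, kn₂⟩ := hS2 P E M p w hS VM V W hVM hV hW _ _ (Or.inr ⟨rfl, rfl⟩) hgood.2
    q₁ q₂ hd₁ hd₂
  have krad := hS3 P E M p w hS VM V W hVM hV hW _ _ (Or.inr ⟨rfl, rfl⟩) hgood.2 q₁ q₂ hd₁ hd₂
  let cf : SSChart w (Mod.chartAlg P E (M * p) (Mod.xE E M p)) :=
    { p₁ := p₁, p₂ := p₂, prime₁ := hp₁, prime₂ := hp₂
      ne := fun h => h₁₂ (h ▸ le_refl p₁), not_le₁₂ := h₁₂, not_le₂₁ := h₂₁, inf_eq := hinf
      normal₁ := hn₁, normal₂ := hn₂, transversal := hrad }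
  let ci : SSChart w (Mod.chartAlg P E (M * p) (Mod.xE E M p)⁻¹) :=
    { p₁ := q₁, p₂ := q₂, prime₁ := hq₁, prime₂ := hq₂
      ne := fun h => k₁₂ (h ▸ le_refl q₁), not_le₁₂ := k₁₂, not_le₂₁ := k₂₁, inf_eq := kinf
      normal₁ := kn₁, normal₂ := kn₂, transversal := krad }
  obtain ⟨hLf₁, hLf₂⟩ := hLoc P E M p w hS V W hV hW _ (Or.inl rfl) p₁ p₂ hc₁ hc₂
  obtain ⟨hLi₁, hLi₂⟩ := hLoc P E M p w hS V W hV hW _ (Or.inr rfl) q₁ q₂ hd₁ hd₂
  -- the root of unity in `R`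
  have hζP : (algebraMap E Qb ζ) ∈ P :=
    mem_of_pow_eq_one P hp.ne_zero (by rw [← map_pow, hζ.pow_eq_one, map_one])
  set ζR : ↥(RE P E) := ⟨ζ, hζP⟩ with hζRdef
  have hζR : IsPrimitiveRoot ζR p :=
    IsPrimitiveRoot.of_map_of_injective (f := (RE P E).subtype) hζ Subtype.val_injective
  have hcR : T1.H669.resR hE τ hτ ζR = ζR ^ c := Subtype.ext hc
  have hpR : ((p : ℕ) : ↥(RE P E)) ∈ IsLocalRing.maximalIdeal ↥(RE P E) :=
    T1.H669.natCast_mem_maximalIdeal_RE E hP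
  -- depth `p²` is depth `λ^p w`
  obtain ⟨a, ha⟩ := exists_sq_eq w hw.maximalIdeal_eq p hp hp3 hpR ζR hζR
  set s : ↥(RE P E) := (ζR - 1) ^ p * w with hs
  have hr : algebraMap E (FE E (M * p)) ((p : E) ^ 2) =
      algebraMap ↥(RE P E) (FE E (M * p)) s * Mod.cE P E (M * p) a := by
    have h1 : ((p : E) ^ 2) = ((s * a : ↥(RE P E)) : E) := by
      have := congrArg (fun z : ↥(RE P E) => (z : E)) ha
      simpa [hs] using this
    rw [h1]
    show _ = algebraMap E (FE E (M * p)) (s : E) * algebraMap E (FE E (M * p)) (a : E)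
    rw [← map_mul]
    rfl
  have hWc : ∀ r : ↥(RE P E), W (Mod.cE P E (M * p) r) = Mod.cE P E (M * p) r :=
    fun r => W.commutes (r : E)
  have hcV : ∀ r : ↥(RE P E), Mod.cE P E (M * p) r ∈ V := fun r => Mod.H378.cE_mem hV r
  have hcV₀ : ∀ r : ↥(RE P E),
      Mod.cE P E (M * p) r ∈ V.comap (W : FE E (M * p) →+* FE E (M * p)) := fun r => by
    show W (Mod.cE P E (M * p) r) ∈ V
    rw [hWc]
    exact hcV r
  have hd1' := hd1.mono (hcV a) hr
  have hd2' := hd2.mono (hcV₀ a) hr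
  -- merge
  have hU₁ : H48.IsUnif V (Mod.cE P E (M * p) w) := H232.isUnif_vinf hS hNne hV
  have hU₂ : H48.IsUnif (V.comap (W : FE E (M * p) →+* FE E (M * p)))
      (Mod.cE P E (M * p) w) := H232.isUnif_comap hU₁ _ (hWc w)
  have hne : V ≠ V.comap (W : FE E (M * p) →+* FE E (M * p)) :=
    fun h => Mod.H553.vzeroNe P E M p w hS V W hV hW h.symm
  have harch₁ : ∀ x : FE E (M * p), ∃ n : ℕ, Mod.cE P E (M * p) w ^ n * x ∈ V :=
    fun x => H232.arch_vinf hS hV x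
  have harch₂ : ∀ x : FE E (M * p), ∃ n : ℕ,
      Mod.cE P E (M * p) w ^ n * x ∈ V.comap (W : FE E (M * p) →+* FE E (M * p)) := by
    intro x
    obtain ⟨n, hn⟩ := H232.arch_vinf hS hV (W x)
    refine ⟨n, ?_⟩
    show W (Mod.cE P E (M * p) w ^ n * x) ∈ V
    rw [map_mul, map_pow, hWc]
    exact hn
  have hw0 : Mod.cE P E (M * p) w ≠ 0 := Mod.H378.cE_ne_zero hS _
  have hsr : algebraMap ↥(RE P E) (FE E (M * p)) s =
      Mod.cE P E (M * p) ((ζR - 1) ^ p) * Mod.cE P E (M * p) w := by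
    show algebraMap E (FE E (M * p)) (s : E) = algebraMap E (FE E (M * p)) _ *
      algebraMap E (FE E (M * p)) _
    rw [← map_mul]
    rfl
  have hs0 : algebraMap ↥(RE P E) (FE E (M * p)) s ≠ 0 := by
    rw [hsr]
    refine mul_ne_zero ?_ hw0
    show algebraMap E (FE E (M * p)) _ ≠ 0
    rw [Ne, map_eq_zero]
    intro h0
    have h1 : (ζR - 1) ^ p = 0 := Subtype.ext h0
    have h2 : ζR - 1 = 0 := pow_eq_zero_iff hp.ne_zero |>.1 h1
    exact hζR.ne_one hp.one_lt (sub_eq_zero.mp h2)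
  have hsπ : algebraMap ↥(RE P E) (FE E (M * p)) s * (Mod.cE P E (M * p) w)⁻¹ =
      Mod.cE P E (M * p) ((ζR - 1) ^ p) := by
    rw [hsr, mul_assoc, mul_inv_cancel₀ hw0, mul_one]
  obtain ⟨h, u, hh0, hyu, hu₁, hu₂⟩ := hMerge V (V.comap (W : FE E (M * p) →+* FE E (M * p)))
    (Mod.cE P E (M * p) w) hU₁ hU₂ hne harch₁ harch₂ p
    (algebraMap ↥(RE P E) (FE E (M * p)) s) y hs0
    (by rw [hsπ]; exact hcV _) (by rw [hsπ]; exact hcV₀ _) hd1' hd2'
  -- `u` is deep on both charts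
  have hu0 : u ≠ 0 := by
    rintro rfl
    rw [mul_zero] at hyu
    exact hy0 hyu
  have hDf : H495.AlgP.DeepOne (Mod.chartAlg P E (M * p) (Mod.xE E M p)) cf p (ζR - 1) u :=
    ⟨locOneR_of_oneMod _ p₁ V hLf₁ s u hu₁, locOneR_of_oneMod _ p₂ _ hLf₂ s u hu₂⟩
  have hDi : H495.AlgP.DeepOne (Mod.chartAlg P E (M * p) (Mod.xE E M p)⁻¹) ci p (ζR - 1) u :=
    ⟨locOneR_of_oneMod _ q₁ V hLi₁ s u hu₁, locOneR_of_oneMod _ q₂ _ hLi₂ s u hu₂⟩
  have hddu : DivisibleDiv E p u := divisibleDiv_of_pow_mul p y h u hh0 hyu hdd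
  -- ALG-p
  have hSτ := Mod.H751.stau_of_s1 P E M p w hS1 hS τ (hE.res τ hτ) hτ (fun _ => rfl)
  have hconcl := hALG (R := ↥(RE P E)) (E := E) (F := ↥(FE E (M * p))) w hw p hp hp2 hpR
    ζR hζR (Mod.xE E M p) hx hfin hconst
    (Mod.chartAlg P E (M * p) (Mod.xE E M p)) (Mod.chartAlg P E (M * p) (Mod.xE E M p)⁻¹)
    (fun _ => Iff.rfl) (fun _ => Iff.rfl) cf ci
    (arithmeticRingAut (modularFunctionFieldFull (M * p)) (hE.res τ hτ))
    (hE.res τ hτ).toRingEquiv (T1.H669.resR hE τ hτ)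
    (fun e => arithmeticRingAut_algebraMap (modularFunctionFieldFull (M * p)) (hE.res τ hτ) e)
    (fun r => rfl)
    (fun b hb => hSτ.2 _ (Or.inl rfl) b hb)
    (fun b hb => hSτ.2 _ (Or.inr rfl) b hb)
    c hcR
  obtain ⟨h', hh'0, hrel⟩ := hconcl u hu0 hddu hDf hDi
  -- conclusion
  set T := arithmeticRingAut (modularFunctionFieldFull (M * p)) (hE.res τ hτ) with hT
  have hTh : T h ≠ 0 := (map_ne_zero T).2 hh0
  refine ⟨T h * h' * (h ^ c)⁻¹, mul_ne_zero (mul_ne_zero hTh hh'0)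
    (inv_ne_zero (pow_ne_zero c hh0)), ?_⟩
  rw [hyu, map_mul, map_pow, hrel]
  have e : ((h ^ c)⁻¹) ^ p * (h ^ p) ^ c = 1 := by
    rw [inv_pow, ← pow_mul, ← pow_mul, mul_comm p c]
    exact inv_mul_cancel₀ (pow_ne_zero _ hh0)
  calc T h ^ p * (h' ^ p * u ^ c)
      = T h ^ p * h' ^ p * u ^ c * (((h ^ c)⁻¹) ^ p * (h ^ p) ^ c) := by
        rw [e, mul_one, mul_assoc]
    _ = (T h * h' * (h ^ c)⁻¹) ^ p * (h ^ p * u) ^ c := by
        rw [mul_pow, mul_pow, mul_pow]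
        ring

/-- **LEVEL from the parts** (`p ≥ 5`, the frozen Prop of `S2Level.lean`). -/
theorem level_of_parts (hALG : H495.AlgP.AlgPStatement) (hMerge : MergeStatement)
    (hLoc : CutLocStatement)
    (hS2 : ∀ (P : ValuationSubring Qb) (E : IntermediateField ℚ Qb) (M q : ℕ) [NeZero M]
      [NeZero q] (w : RE P E), Mod.S2Statement P E M q w)
    (hS3 : ∀ (P : ValuationSubring Qb) (E : IntermediateField ℚ Qb) (M q : ℕ) [NeZero M]
      [NeZero q] (w : RE P E), Mod.S3Statement P E M q w)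
    (hGood : Top.H994.GoodRedStatement) : LevelStatement :=
  level_of_ready (levelReady_of_parts hALG hMerge hLoc hS2 hS3 hGood)

end Fermat.Agent.Ribet.H220

end
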